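import Mathlib
import Fermat.Agent.LT.T1.Spec
import Fermat.Agent.LT.H11.LC

/-!
# Row LT, tower T1, leaf T1.06 `LeafFujisaki` (helper629), part 1: idelic Minkowski

OFF-MAIN.  For a number field `K`: there is `r > 0` such that for every idele `y` of module `1`
there is `ξ ∈ Kˣ` with `ξ y⁻¹` in the box `Wset629 K r` (`‖x_w‖ ≤ r` at the infinite places,
`x_v` integral at the finite places).  Proof: Mathlib's Minkowski theorem
(`NumberField.mixedEmbedding.exists_ne_zero_mem_ideal_lt`) applied to the integral ideal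
`∏ v ^ ord_v (d y)` for a common denominator `d` of `y`.
-/

set_option autoImplicit false

open IsDedekindDomain NumberField HeightOneSpectrum
open scoped WithZero NNReal ENNReal nonZeroDivisors

noncomputable section

namespace Fermat.Agent.LT.T1.H629

open Fermat.Agent.LT.H556.A0

variable (K : Type) [Field K] [NumberField K]

open mixedEmbedding MeasureTheory in
/-- Minkowski bound of a fractional ideal in terms of the bound of the unit ideal. -/
theorem minkowskiBound_eq629 (I : (FractionalIdeal (𝓞 K)⁰ K)ˣ) :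
    minkowskiBound K I = ENNReal.ofReal (FractionalIdeal.absNorm I.1) * minkowskiBound K 1 := by
  classical
  have h1 := volume_fundamentalDomain_fractionalIdealLatticeBasis K I
  have h2 := volume_fundamentalDomain_fractionalIdealLatticeBasis K 1
  simp only [Units.val_one, FractionalIdeal.absNorm_one, Rat.cast_one, ENNReal.ofReal_one,
    one_mul] at h2
  unfold minkowskiBound
  rw [h1, h2, mul_assoc]

open mixedEmbedding MeasureTheory in
/-- **Minkowski**, real form, for integral ideals. -/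
theorem exists_minkowski629 :
    ∃ C₀ : ℝ, 0 < C₀ ∧ ∀ (J : Ideal (𝓞 K)), J ≠ ⊥ → ∀ f : InfinitePlace K → ℝ, (∀ w, 0 < f w) →
      C₀ * (Ideal.absNorm J : ℝ) < ∏ w : InfinitePlace K, f w ^ w.mult →
      ∃ a : 𝓞 K, a ∈ J ∧ a ≠ 0 ∧ ∀ w : InfinitePlace K, w (a : K) < f w := by
  classical
  have hB0 : 0 < (minkowskiBound K 1).toReal :=
    ENNReal.toReal_pos (minkowskiBound_pos K 1).ne' (minkowskiBound_lt_top K 1).ne
  have hF0 : (0 : ℝ) < (convexBodyLTFactor K : ℝ) :=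
    lt_of_lt_of_le zero_lt_one (by exact_mod_cast one_le_convexBodyLTFactor K)
  refine ⟨(minkowskiBound K 1).toReal / (convexBodyLTFactor K : ℝ), div_pos hB0 hF0, ?_⟩
  intro J hJ f hf hlt
  have hJ' : (J : FractionalIdeal (𝓞 K)⁰ K) ≠ 0 := FractionalIdeal.coeIdeal_ne_zero.mpr hJ
  set I : (FractionalIdeal (𝓞 K)⁰ K)ˣ := Units.mk0 (J : FractionalIdeal (𝓞 K)⁰ K) hJ' with hI
  set f' : InfinitePlace K → ℝ≥0 := fun w => ⟨f w, (hf w).le⟩ with hf'
  have hN : ((FractionalIdeal.absNorm (I.1) : ℚ) : ℝ) = (Ideal.absNorm J : ℝ) := by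
    rw [hI, Units.val_mk0, FractionalIdeal.coeIdeal_absNorm]
    norm_cast
  have hP0 : 0 ≤ ∏ w : InfinitePlace K, f w ^ w.mult :=
    Finset.prod_nonneg fun w _ => pow_nonneg (hf w).le _
  have key : minkowskiBound K I < volume (convexBodyLT K f') := by
    rw [minkowskiBound_eq629, convexBodyLT_volume, hN]
    have e1 : minkowskiBound K 1 = ENNReal.ofReal (minkowskiBound K 1).toReal :=
      (ENNReal.ofReal_toReal (minkowskiBound_lt_top K 1).ne).symm
    have e2 : ((convexBodyLTFactor K : ℝ≥0) : ℝ≥0∞) *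
        ((∏ w : InfinitePlace K, (f' w) ^ w.mult : ℝ≥0) : ℝ≥0∞)
        = ENNReal.ofReal ((convexBodyLTFactor K : ℝ) * ∏ w : InfinitePlace K, f w ^ w.mult) := by
      rw [← ENNReal.coe_mul, ENNReal.ofReal, ENNReal.coe_inj]
      ext
      rw [Real.coe_toNNReal _ (mul_nonneg hF0.le hP0), NNReal.coe_mul, NNReal.coe_prod]
      rfl
    rw [e1, ← ENNReal.ofReal_mul (Nat.cast_nonneg _), e2]
    rw [ENNReal.ofReal_lt_ofReal_iff (mul_pos_iff_of_pos_left hF0 |>.2 ?_)]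
    · rw [div_mul_eq_mul_div, div_lt_iff₀ hF0] at hlt
      linarith
    · have : 0 ≤ (minkowskiBound K 1).toReal / (convexBodyLTFactor K : ℝ) * (Ideal.absNorm J : ℝ) :=
        mul_nonneg (div_pos hB0 hF0).le (Nat.cast_nonneg _)
      linarith
  obtain ⟨a, ha, ha0, haw⟩ := exists_ne_zero_mem_ideal_lt K I key
  rw [hI, Units.val_mk0, FractionalIdeal.mem_coeIdeal] at ha
  obtain ⟨a', ha', rfl⟩ := ha
  refine ⟨a', ha', ?_, haw⟩
  rintro rfl
  exact ha0 (map_zero _)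

theorem toNNReal_exp629 {e : ℝ≥0} (he : e ≠ 0) (k : ℤ) :
    WithZeroMulInt.toNNReal he (WithZero.exp k) = e ^ k := by
  rw [WithZeroMulInt.toNNReal_neg_apply he WithZero.exp_ne_zero]
  rfl

theorem exists_nat_exp629 (x : ℤᵐ⁰) (hx : x ≠ 0) (h1 : x ≤ 1) :
    ∃ m : ℕ, x = WithZero.exp (-(m : ℤ)) := by
  have h2 : WithZero.log x ≤ 0 := by
    have := (WithZero.log_le_log hx one_ne_zero).2 h1
    simpa using this
  refine ⟨(-(WithZero.log x)).toNat, ?_⟩
  rw [Int.toNat_of_nonneg (by omega), neg_neg, WithZero.exp_log hx]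

/-- norm of a local element of valuation `exp (-m)` -/
theorem norm_of_valued_eq_exp629 (v : HeightOneSpectrum (𝓞 K)) (x : v.adicCompletion K) (m : ℕ)
    (hx : Valued.v x = WithZero.exp (-(m : ℤ))) :
    ‖x‖ = ((Ideal.absNorm v.asIdeal : ℝ) ^ m)⁻¹ := by
  rw [FinitePlace.norm_def, hx, toNNReal_exp629]
  simp

theorem norm_of_valued_eq_one629 (v : HeightOneSpectrum (𝓞 K)) (x : v.adicCompletion K)
    (hx : Valued.v x = 1) : ‖x‖ = 1 := by
  rw [FinitePlace.norm_def, hx, map_one]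
  rfl

theorem snd_isUnit629 (z : (Adl K)ˣ) : IsUnit ((z : Adl K).2) :=
  z.isUnit.map (RingHom.snd (InfiniteAdeleRing K) (FiniteAdeleRing (𝓞 K) K))

theorem snd_ne_zero629 (z : (Adl K)ˣ) (v : HeightOneSpectrum (𝓞 K)) : (z : Adl K).2 v ≠ 0 :=
  (FiniteAdeleRing.isUnit_iff.1 (snd_isUnit629 K z)).1 v

theorem snd_finite629 (z : (Adl K)ˣ) :
    {v : HeightOneSpectrum (𝓞 K) | Valued.v ((z : Adl K).2 v) ≠ 1}.Finite := by
  have := (FiniteAdeleRing.isUnit_iff.1 (snd_isUnit629 K z)).2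
  simpa [Filter.eventually_cofinite] using this

theorem valued_algebraMap629 (a : 𝓞 K) (v : HeightOneSpectrum (𝓞 K)) :
    Valued.v ((algebraMap K (Adl K) (a : K)).2 v) = v.intValuation a := by
  rw [show (algebraMap K (Adl K) (a : K)).2 v = ((a : K) : v.adicCompletion K) from rfl,
    valuedAdicCompletion_eq_valuation', valuation_of_algebraMap]

/-- The ideal of an integral idele. -/
theorem exists_ideal629 (z : (Adl K)ˣ) (hz : ∀ v, Valued.v ((z : Adl K).2 v) ≤ 1) :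
    ∃ J : Ideal (𝓞 K), J ≠ ⊥ ∧
      (∀ a : 𝓞 K, a ∈ J → ∀ v : HeightOneSpectrum (𝓞 K),
        Valued.v ((algebraMap K (Adl K) (a : K)).2 v) ≤ Valued.v ((z : Adl K).2 v)) ∧
      (Ideal.absNorm J : ℝ) * ∏ᶠ v : HeightOneSpectrum (𝓞 K), ‖(z : Adl K).2 v‖ = 1 := by
  classical
  have hex : ∀ v : HeightOneSpectrum (𝓞 K), ∃ m : ℕ,
      Valued.v ((z : Adl K).2 v) = WithZero.exp (-(m : ℤ)) := fun v =>
    exists_nat_exp629 _ (by simpa using snd_ne_zero629 K z v) (hz v)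
  choose m hm using hex
  set S : Finset (HeightOneSpectrum (𝓞 K)) := (snd_finite629 K z).toFinset with hS
  have hSmem : ∀ v, v ∈ S ↔ Valued.v ((z : Adl K).2 v) ≠ 1 := by
    intro v; simp [hS]
  refine ⟨∏ v ∈ S, v.asIdeal ^ m v, ?_, ?_, ?_⟩
  · rw [← Ideal.zero_eq_bot, Finset.prod_ne_zero_iff]
    intro v _
    exact pow_ne_zero _ v.ne_bot
  · intro a ha v
    rw [valued_algebraMap629]
    by_cases hv : v ∈ S
    · have hle : ∏ v ∈ S, v.asIdeal ^ m v ≤ v.asIdeal ^ m v :=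
        Ideal.le_of_dvd (Finset.dvd_prod_of_mem _ hv)
      rw [hm v]
      exact (intValuation_le_pow_iff_mem v a (m v)).2 (hle ha)
    · have h1 : Valued.v ((z : Adl K).2 v) = 1 := by
        by_contra h; exact hv ((hSmem v).2 h)
      rw [h1]
      exact intValuation_le_one v a
  · have hsupp : Function.mulSupport (fun v : HeightOneSpectrum (𝓞 K) => ‖(z : Adl K).2 v‖)
        ⊆ (S : Set (HeightOneSpectrum (𝓞 K))) := by
      intro v hv
      rw [Function.mem_mulSupport] at hv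
      rw [Finset.mem_coe, hSmem]
      intro h1
      exact hv (norm_of_valued_eq_one629 K v _ h1)
    rw [finprod_eq_prod_of_mulSupport_subset _ hsupp, map_prod, Nat.cast_prod,
      ← Finset.prod_mul_distrib]
    refine Finset.prod_eq_one fun v _ => ?_
    rw [map_pow, Nat.cast_pow, norm_of_valued_eq_exp629 K v _ (m v) (hm v)]
    have hN : (Ideal.absNorm v.asIdeal : ℝ) ≠ 0 := by
      have := one_lt_absNorm v
      positivity
    exact mul_inv_cancel₀ (pow_ne_zero _ hN)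

theorem fst_isUnit629 (z : (Adl K)ˣ) (w : InfinitePlace K) : IsUnit ((z : Adl K).1 w) :=
  (z.isUnit.map (RingHom.fst (InfiniteAdeleRing K) (FiniteAdeleRing (𝓞 K) K))).map
    (Pi.evalRingHom (fun w : InfinitePlace K => w.Completion) w)

theorem fst_ne_zero629 (z : (Adl K)ˣ) (w : InfinitePlace K) : (z : Adl K).1 w ≠ 0 :=
  (fst_isUnit629 K z w).ne_zero

theorem norm_fst_pos629 (z : (Adl K)ˣ) (w : InfinitePlace K) : 0 < ‖(z : Adl K).1 w‖ :=
  norm_pos_iff.2 (fst_ne_zero629 K z w)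

/-- Idelic Minkowski, integral case. -/
theorem exists_minkowski_integral629 :
    ∃ r : ℝ, 0 < r ∧ ∀ z : (Adl K)ˣ, (∀ v, Valued.v ((z : Adl K).2 v) ≤ 1) →
      adNorm K (z : Adl K) = 1 →
      ∃ a : 𝓞 K, a ≠ 0 ∧ (∀ w : InfinitePlace K, w (a : K) ≤ r * ‖(z : Adl K).1 w‖) ∧
        ∀ v : HeightOneSpectrum (𝓞 K),
          Valued.v ((algebraMap K (Adl K) (a : K)).2 v) ≤ Valued.v ((z : Adl K).2 v) := by
  classical
  obtain ⟨C₀, hC₀, hM⟩ := exists_minkowski629 K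
  refine ⟨C₀ + 1, by linarith, ?_⟩
  intro z hz hnorm
  obtain ⟨J, hJ0, hJmem, hJnorm⟩ := exists_ideal629 K z hz
  set r : ℝ := C₀ + 1 with hr
  have hr1 : 1 ≤ r := by linarith
  set P : ℝ := ∏ w : InfinitePlace K, ‖(z : Adl K).1 w‖ ^ w.mult with hP
  set Q : ℝ := ∏ᶠ v : HeightOneSpectrum (𝓞 K), ‖(z : Adl K).2 v‖ with hQ
  have hPQ : P * Q = 1 := hnorm
  have hPN : P = (Ideal.absNorm J : ℝ) := by
    calc P = P * ((Ideal.absNorm J : ℝ) * Q) := by rw [hJnorm, mul_one]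
      _ = (Ideal.absNorm J : ℝ) * (P * Q) := by ring
      _ = (Ideal.absNorm J : ℝ) := by rw [hPQ, mul_one]
  have hNpos : (0 : ℝ) < (Ideal.absNorm J : ℝ) := by
    have h0 : (0 : ℝ) ≤ (Ideal.absNorm J : ℝ) := Nat.cast_nonneg _
    rcases h0.lt_or_eq with h | h
    · exact h
    · rw [← h, zero_mul] at hJnorm
      exact absurd hJnorm zero_ne_one
  have hdeg : 1 ≤ ∑ w : InfinitePlace K, w.mult := by
    rw [InfinitePlace.sum_mult_eq]
    exact Module.finrank_pos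
  have hprod : ∏ w : InfinitePlace K, (r * ‖(z : Adl K).1 w‖) ^ w.mult
      = r ^ (∑ w : InfinitePlace K, w.mult) * P := by
    simp_rw [mul_pow]
    rw [Finset.prod_mul_distrib, Finset.prod_pow_eq_pow_sum]
  obtain ⟨a, haJ, ha0, haw⟩ := hM J hJ0 (fun w => r * ‖(z : Adl K).1 w‖)
    (fun w => mul_pos (by linarith) (norm_fst_pos629 K z w)) (by
      rw [hprod, hPN]
      have h1 : r ≤ r ^ (∑ w : InfinitePlace K, w.mult) := le_self_pow₀ hr1 (by omega)
      have h2 : C₀ < r ^ (∑ w : InfinitePlace K, w.mult) := by linarith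
      exact mul_lt_mul_of_pos_right h2 hNpos)
  exact ⟨a, ha0, fun w => (haw w).le, hJmem a haJ⟩

theorem norm_algebraMap_fst629 (k : K) (w : InfinitePlace K) :
    ‖(algebraMap K (Adl K) k).1 w‖ = w k := by
  rw [show (algebraMap K (Adl K) k).1 w = ((k : K) : w.Completion) from rfl]
  have := InfinitePlace.Completion.norm_coe w ((WithAbs.equiv w.1).symm k)
  simpa using this

theorem val_mul_snd629 (x y : (Adl K)ˣ) (v : HeightOneSpectrum (𝓞 K)) :
    ((x * y : (Adl K)ˣ) : Adl K).2 v = (x : Adl K).2 v * (y : Adl K).2 v := rfl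

theorem val_mul_fst629 (x y : (Adl K)ˣ) (w : InfinitePlace K) :
    ((x * y : (Adl K)ˣ) : Adl K).1 w = (x : Adl K).1 w * (y : Adl K).1 w := rfl

theorem val_one_snd629 (v : HeightOneSpectrum (𝓞 K)) :
    ((1 : (Adl K)ˣ) : Adl K).2 v = 1 := rfl

theorem val_one_fst629 (w : InfinitePlace K) :
    ((1 : (Adl K)ˣ) : Adl K).1 w = 1 := rfl

theorem ratUnit_val629 (ξ : Kˣ) : ((ratUnit K ξ : (Adl K)ˣ) : Adl K) = algebraMap K (Adl K) (ξ : K) := rfl

/-- The box: `‖x_w‖ ≤ r` at the infinite places, `x_v` integral at the finite places. -/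
def Wset629 (r : ℝ) : Set (Adl K) :=
  {x | (∀ w : InfinitePlace K, ‖x.1 w‖ ≤ r) ∧
    ∀ v : HeightOneSpectrum (𝓞 K), Valued.v (x.2 v) ≤ 1}

theorem mem_Wset_of_le629 (r : ℝ) (u y : (Adl K)ˣ)
    (hinf : ∀ w : InfinitePlace K, ‖(u : Adl K).1 w‖ ≤ r * ‖(y : Adl K).1 w‖)
    (hfin : ∀ v : HeightOneSpectrum (𝓞 K),
      Valued.v ((u : Adl K).2 v) ≤ Valued.v ((y : Adl K).2 v)) :
    ((u * y⁻¹ : (Adl K)ˣ) : Adl K) ∈ Wset629 K r := by
  refine ⟨fun w => ?_, fun v => ?_⟩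
  · rw [val_mul_fst629, norm_mul]
    have h1 : ‖(y : Adl K).1 w‖ * ‖((y⁻¹ : (Adl K)ˣ) : Adl K).1 w‖ = 1 := by
      rw [← norm_mul, ← val_mul_fst629, mul_inv_cancel, val_one_fst629, norm_one]
    calc ‖(u : Adl K).1 w‖ * ‖((y⁻¹ : (Adl K)ˣ) : Adl K).1 w‖
        ≤ (r * ‖(y : Adl K).1 w‖) * ‖((y⁻¹ : (Adl K)ˣ) : Adl K).1 w‖ :=
          mul_le_mul_of_nonneg_right (hinf w) (norm_nonneg _)
      _ = r := by rw [mul_assoc, h1, mul_one]
  · rw [val_mul_snd629, map_mul]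
    have h1 : Valued.v ((y : Adl K).2 v) * Valued.v (((y⁻¹ : (Adl K)ˣ) : Adl K).2 v) = 1 := by
      rw [← map_mul, ← val_mul_snd629, mul_inv_cancel, val_one_snd629, map_one]
    calc Valued.v ((u : Adl K).2 v) * Valued.v (((y⁻¹ : (Adl K)ˣ) : Adl K).2 v)
        ≤ Valued.v ((y : Adl K).2 v) * Valued.v (((y⁻¹ : (Adl K)ˣ) : Adl K).2 v) :=
          mul_le_mul_left (hfin v) _
      _ = 1 := h1

theorem exists_nat_exp_mul_le629 (x : ℤᵐ⁰) (hx : x ≠ 0) :
    ∃ k : ℕ, WithZero.exp (-(k : ℤ)) * x ≤ 1 := by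
  obtain ⟨t, rfl⟩ : ∃ t : ℤ, x = WithZero.exp t := ⟨WithZero.log x, (WithZero.exp_log hx).symm⟩
  refine ⟨t.toNat, ?_⟩
  rw [← WithZero.exp_add, ← WithZero.exp_zero, WithZero.exp_le_exp]
  have := Int.self_le_toNat t
  omega

/-- A common denominator of an idele. -/
theorem exists_denominator629 (y : (Adl K)ˣ) :
    ∃ d : 𝓞 K, d ≠ 0 ∧ ∀ v : HeightOneSpectrum (𝓞 K),
      v.intValuation d * Valued.v ((y : Adl K).2 v) ≤ 1 := by
  classical
  have hex : ∀ v : HeightOneSpectrum (𝓞 K), ∃ k : ℕ,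
      WithZero.exp (-(k : ℤ)) * Valued.v ((y : Adl K).2 v) ≤ 1 := fun v =>
    exists_nat_exp_mul_le629 _ (by simpa using snd_ne_zero629 K y v)
  choose k hk using hex
  set S : Finset (HeightOneSpectrum (𝓞 K)) := (snd_finite629 K y).toFinset with hS
  have hSmem : ∀ v, v ∈ S ↔ Valued.v ((y : Adl K).2 v) ≠ 1 := by
    intro v; simp [hS]
  refine ⟨∏ v ∈ S, ((Ideal.absNorm v.asIdeal : ℕ) : 𝓞 K) ^ k v, ?_, ?_⟩
  · rw [Finset.prod_ne_zero_iff]
    intro v _
    refine pow_ne_zero _ ?_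
    have := one_lt_absNorm v
    exact_mod_cast (by omega : Ideal.absNorm v.asIdeal ≠ 0)
  · intro v
    by_cases hv : v ∈ S
    · have hmem : (∏ v ∈ S, ((Ideal.absNorm v.asIdeal : ℕ) : 𝓞 K) ^ k v) ∈ v.asIdeal ^ k v := by
        obtain ⟨c, hc⟩ := Finset.dvd_prod_of_mem
          (fun v : HeightOneSpectrum (𝓞 K) => ((Ideal.absNorm v.asIdeal : ℕ) : 𝓞 K) ^ k v) hv
        rw [hc]
        exact Ideal.mul_mem_right _ _ (Ideal.pow_mem_pow (Ideal.absNorm_mem v.asIdeal) _)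
      have hle := (intValuation_le_pow_iff_mem v _ (k v)).2 hmem
      exact le_trans (mul_le_mul_left hle _) (hk v)
    · have h1 : Valued.v ((y : Adl K).2 v) = 1 := by
        by_contra h; exact hv ((hSmem v).2 h)
      rw [h1, mul_one]
      exact intValuation_le_one v _

/-- **Idelic Minkowski**: every idele of module `1` is, up to a box, a principal idele. -/
theorem exists_minkowski_idele629 (hN : AdNormC K) :
    ∃ r : ℝ, 0 < r ∧ ∀ y : (Adl K)ˣ, adNorm K (y : Adl K) = 1 →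
      ∃ ξ : Kˣ, ((ratUnit K ξ * y⁻¹ : (Adl K)ˣ) : Adl K) ∈ Wset629 K r := by
  obtain ⟨r, hr, hM⟩ := exists_minkowski_integral629 K
  refine ⟨r, hr, fun y hy => ?_⟩
  obtain ⟨d, hd0, hd⟩ := exists_denominator629 K y
  have hdK : (d : K) ≠ 0 := by simpa using hd0
  set dK : Kˣ := Units.mk0 (d : K) hdK with hdKdef
  set z : (Adl K)ˣ := ratUnit K dK * y with hz
  have hzfin : ∀ v : HeightOneSpectrum (𝓞 K), Valued.v ((z : Adl K).2 v) ≤ 1 := by
    intro v
    rw [hz, val_mul_snd629, map_mul, ratUnit_val629, hdKdef, Units.val_mk0, valued_algebraMap629]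
    exact hd v
  have hznorm : adNorm K (z : Adl K) = 1 := by
    rw [hz, hN.2.1, hN.2.2.1, hy, mul_one]
  obtain ⟨a, ha0, hainf, hafin⟩ := hM z hzfin hznorm
  have haK : (a : K) ≠ 0 := by simpa using ha0
  set aK : Kˣ := Units.mk0 (a : K) haK with haKdef
  refine ⟨aK * dK⁻¹, ?_⟩
  have e : ratUnit K (aK * dK⁻¹) * y⁻¹ = ratUnit K aK * z⁻¹ := by
    rw [hz, map_mul, map_inv, mul_inv, mul_assoc]
  rw [e]
  refine mem_Wset_of_le629 K r (ratUnit K aK) z (fun w => ?_) (fun v => ?_)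
  · rw [ratUnit_val629, haKdef, Units.val_mk0, norm_algebraMap_fst629]
    exact hainf w
  · rw [ratUnit_val629, haKdef, Units.val_mk0]
    exact hafin v

end Fermat.Agent.LT.T1.H629
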