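import Mathlib
import Fermat.Agent.LT.T1.Spec
import Fermat.Agent.LT.H11.LC
import Fermat.Agent.LT.T1.H629.FujisakiMinkowski

/-!
# Row LT, tower T1, leaf T1.06 `LeafFujisaki` (helper629), part 2: compactness and assembly

OFF-MAIN.  The box `Wset629 K r` is compact; Fujisaki's lemma by the argument of
Cassels–Fröhlich II §16 from idelic Minkowski (`exists_minkowski_idele629`).
-/

set_option autoImplicit false

open IsDedekindDomain NumberField HeightOneSpectrum
open scoped WithZero NNReal ENNReal nonZeroDivisors RestrictedProduct Pointwise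

noncomputable section

namespace Fermat.Agent.LT.T1.H629

open Fermat.Agent.LT.H556.A0

variable (K : Type) [Field K] [NumberField K]

omit [NumberField K] in
/-- Closed balls of the completion at an infinite place are compact. -/
theorem isCompact_closedBall_completion629 (w : InfinitePlace K) (r : ℝ) :
    IsCompact {x : w.Completion | ‖x‖ ≤ r} := by
  have hiso := InfinitePlace.Completion.isometry_extensionEmbedding w
  have hce : Topology.IsClosedEmbedding (InfinitePlace.Completion.extensionEmbedding w) :=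
    hiso.isClosedEmbedding
  have hset : {x : w.Completion | ‖x‖ ≤ r}
      = (InfinitePlace.Completion.extensionEmbedding w) ⁻¹' (Metric.closedBall (0 : ℂ) r) := by
    ext x
    rw [Set.mem_preimage, mem_closedBall_zero_iff, hiso.norm_map_of_map_zero (map_zero _) x]
    rfl
  rw [hset]
  exact hce.isCompact_preimage (isCompact_closedBall _ _)

omit [NumberField K] in
/-- The infinite part of the box is compact. -/
theorem isCompact_infBox629 (r : ℝ) :
    IsCompact {x : InfiniteAdeleRing K | ∀ w : InfinitePlace K, ‖x w‖ ≤ r} := by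
  have h := isCompact_univ_pi (fun w : InfinitePlace K => isCompact_closedBall_completion629 K w r)
  have hset : {x : InfiniteAdeleRing K | ∀ w : InfinitePlace K, ‖x w‖ ≤ r}
      = Set.pi Set.univ (fun w : InfinitePlace K => {x : w.Completion | ‖x‖ ≤ r}) := by
    ext x
    exact ⟨fun hx w _ => hx w, fun hx w => hx w (Set.mem_univ w)⟩
  rw [hset]
  exact h

/-- The integral finite adeles are compact. -/
theorem isCompact_finBox629 :
    IsCompact {x : FiniteAdeleRing (𝓞 K) K | ∀ v : HeightOneSpectrum (𝓞 K), Valued.v (x v) ≤ 1} := by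
  have hc : ∀ v : HeightOneSpectrum (𝓞 K),
      CompactSpace ((v.adicCompletionIntegers K : Set (v.adicCompletion K))) := fun v =>
    isCompact_iff_compactSpace.1 (Fermat.Agent.LT.H11.LC.isCompact_integers_h11 K v)
  have hrange := RestrictedProduct.range_structureMap
    (fun v : HeightOneSpectrum (𝓞 K) => v.adicCompletion K)
    (fun v : HeightOneSpectrum (𝓞 K) => (v.adicCompletionIntegers K : Set (v.adicCompletion K)))
    (𝓕 := Filter.cofinite)
  have hcont := (RestrictedProduct.isEmbedding_structureMap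
    (R := fun v : HeightOneSpectrum (𝓞 K) => v.adicCompletion K)
    (A := fun v : HeightOneSpectrum (𝓞 K) => (v.adicCompletionIntegers K : Set (v.adicCompletion K)))
    (𝓕 := Filter.cofinite)).continuous
  have h := isCompact_range hcont
  rw [hrange] at h
  exact h

/-- The box is compact. -/
theorem isCompact_Wset629 (r : ℝ) : IsCompact (Wset629 K r) := by
  have h := (isCompact_infBox629 K r).prod (isCompact_finBox629 K)
  have hset : Wset629 K r = ({x : InfiniteAdeleRing K | ∀ w : InfinitePlace K, ‖x w‖ ≤ r} ×ˢ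
      {x : FiniteAdeleRing (𝓞 K) K | ∀ v : HeightOneSpectrum (𝓞 K), Valued.v (x v) ≤ 1} :
        Set (InfiniteAdeleRing K × FiniteAdeleRing (𝓞 K) K)) := by
    ext x
    rfl
  rw [hset]
  exact h

/-- Only finitely many elements of `K` lie in a compact subset of `𝔸_K`. -/
theorem finite_principal_in_compact629 (hAL : AdeleLatticeC K) (C : Set (Adl K))
    (hC : IsCompact C) : {k : K | algebraMap K (Adl K) k ∈ C}.Finite := by
  obtain ⟨hdisc, hclosed, -⟩ := hAL
  have hT : IsCompact ((princ K : Set (Adl K)) ∩ C) := hC.inter_left hclosed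
  have hd : IsDiscrete (princ K : Set (Adl K)) := isDiscrete_iff_discreteTopology.mpr hdisc
  have hTd : IsDiscrete ((princ K : Set (Adl K)) ∩ C) := hd.mono Set.inter_subset_left
  have hfin : ((princ K : Set (Adl K)) ∩ C).Finite := hT.finite hTd
  have hinj : Function.Injective (algebraMap K (Adl K)) := AdeleRing.algebraMap_injective (𝓞 K) K
  refine (hfin.preimage (Set.injOn_of_injective hinj)).subset ?_
  intro k hk
  exact ⟨⟨k, rfl⟩, hk⟩

theorem adNorm_one629 (hN : AdNormC K) : adNorm K ((1 : (Adl K)ˣ) : Adl K) = 1 := by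
  have := hN.2.2.1 1
  rwa [map_one] at this

theorem adNorm_inv629 (hN : AdNormC K) (x : (Adl K)ˣ) (hx : adNorm K (x : Adl K) = 1) :
    adNorm K ((x⁻¹ : (Adl K)ˣ) : Adl K) = 1 := by
  have h := hN.2.1 x x⁻¹
  rw [mul_inv_cancel, adNorm_one629 K hN, hx, one_mul] at h
  exact h.symm

/-- **Fujisaki's lemma** from the lattice property of `K ⊂ 𝔸_K` and the properties of the module.
-/
theorem fujisakiC629 (hAL : AdeleLatticeC K) (hN : AdNormC K) : FujisakiC K := by
  classical
  obtain ⟨r, -, hM⟩ := exists_minkowski_idele629 K hN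
  have : T2Space (Adl K) := Fermat.Agent.LT.H11.LC.t2Space_adeleRing_h11 K
  have hW : IsCompact (Wset629 K r) := isCompact_Wset629 K r
  have hWW : IsCompact (Wset629 K r * Wset629 K r) := hW.mul hW
  have hZ : {k : K | algebraMap K (Adl K) k ∈ Wset629 K r * Wset629 K r}.Finite :=
    finite_principal_in_compact629 K hAL _ hWW
  set Z' : Set (Adl K) := (fun k : K => algebraMap K (Adl K) k⁻¹) ''
    {k : K | algebraMap K (Adl K) k ∈ Wset629 K r * Wset629 K r} with hZ'def
  have hZ' : Z'.Finite := hZ.image _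
  have hW' : IsCompact (Wset629 K r * Z') := hW.mul hZ'.isCompact
  have hprod : IsCompact ((Wset629 K r) ×ˢ (MulOpposite.op '' (Wset629 K r * Z')) :
      Set (Adl K × (Adl K)ᵐᵒᵖ)) :=
    hW.prod (hW'.image MulOpposite.continuous_op)
  have hce : Topology.IsClosedEmbedding (Units.embedProduct (Adl K)) :=
    Units.isClosedEmbedding_embedProduct
  refine ⟨(Units.embedProduct (Adl K)) ⁻¹'
    ((Wset629 K r) ×ˢ (MulOpposite.op '' (Wset629 K r * Z'))), hce.isCompact_preimage hprod, ?_⟩
  intro x hx
  obtain ⟨η, hη⟩ := hM x⁻¹ (adNorm_inv629 K hN x hx)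
  obtain ⟨θ, hθ⟩ := hM x hx
  rw [inv_inv] at hη
  refine ⟨η⁻¹, ?_⟩
  rw [map_inv, inv_inv]
  have e1 : (ratUnit K η * x) * (ratUnit K θ * x⁻¹) = ratUnit K (η * θ) := by
    rw [mul_mul_mul_comm, mul_inv_cancel, mul_one, map_mul]
  have hηθ : algebraMap K (Adl K) ((η * θ : Kˣ) : K) ∈ Wset629 K r * Wset629 K r := by
    have h := Set.mul_mem_mul hη hθ
    rw [← Units.val_mul, e1] at h
    exact h
  have e2 : (ratUnit K η * x)⁻¹ = (ratUnit K θ * x⁻¹) * ratUnit K (η * θ)⁻¹ := by
    refine inv_eq_of_mul_eq_one_right ?_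
    rw [← mul_assoc, e1, ← map_mul, mul_inv_cancel, map_one]
  refine ⟨hη, ?_⟩
  refine ⟨((ratUnit K θ * x⁻¹ : (Adl K)ˣ) : Adl K) * algebraMap K (Adl K) (((η * θ : Kˣ) : K))⁻¹,
    Set.mul_mem_mul hθ ⟨((η * θ : Kˣ) : K), hηθ, rfl⟩, ?_⟩
  change MulOpposite.op _ = MulOpposite.op (((ratUnit K η * x)⁻¹ : (Adl K)ˣ) : Adl K)
  refine congrArg MulOpposite.op ?_
  rw [e2, Units.val_mul (ratUnit K θ * x⁻¹) (ratUnit K (η * θ)⁻¹), ratUnit_val629 K (η * θ)⁻¹,
    Units.val_inv_eq_inv_val]

/-- **T1.06**. -/
theorem leafFujisaki629 : LeafFujisaki K :=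
  fun _ hAL _ hN => fujisakiC629 K hAL hN

end Fermat.Agent.LT.T1.H629
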